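import Fermat.Agent.LevelLowering.Patch.Scalars

/-!
# Scalars in the image of the patched action

If at almost every finite level every scalar comes from the complete local ring `R`, the same
holds for the patched action.
-/

set_option autoImplicit false

noncomputable section

open IsLocalRing

namespace Fermat.Agent.LevelLowering.Patch

variable {S : Type*} [CommRing S] [IsLocalRing S]
  {d : Type*} [Fintype d] [DecidableEq d] {R : Type*} [CommRing R] [IsLocalRing R]

omit [IsLocalRing R] [DecidableEq d] in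
/-- Entries of products of matrices with entries in given ideals. -/
theorem mul_entry_mem {T : Type*} [CommRing T] {A B : Ideal T} {X Y : Matrix d d T}
    (hX : ∀ i j, X i j ∈ A) (hY : ∀ i j, Y i j ∈ B) (i j : d) : (X * Y) i j ∈ A * B := by
  rw [Matrix.mul_apply]
  exact Ideal.sum_mem _ fun l _ => Ideal.mul_mem_mul (hX i l) (hY l j)

/-- If `maximalIdeal R ^ e` dies on the residual module, `maximalIdeal R ^ (e * N)` acts by
matrices with entries in `maximalIdeal S ^ N`. -/
theorem entry_mem_map_pow {J : Ideal S} (hJ : J ≤ maximalIdeal S)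
    (g : R →+* Matrix d d (S ⧸ J)) {e : ℕ}
    (he : ∀ g' : R →+* Matrix d d (ResidueField S), ∀ f ∈ maximalIdeal R ^ e, g' f = 0) :
    ∀ (N : ℕ), ∀ f ∈ maximalIdeal R ^ (e * N), ∀ i j,
      g f i j ∈ (maximalIdeal S ^ N).map (Ideal.Quotient.mk J) := by
  have h1 : ∀ f ∈ maximalIdeal R ^ e, ∀ i j,
      g f i j ∈ (maximalIdeal S).map (Ideal.Quotient.mk J) := by
    intro f hf i j
    let π : S ⧸ J →+* ResidueField S :=
      Ideal.Quotient.lift J (residue S) fun x hx =>
        Ideal.Quotient.eq_zero_iff_mem.mpr (hJ hx)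
    have h0 := congrFun (congrFun (he (π.mapMatrix.comp g) f hf) i) j
    obtain ⟨x, hx⟩ := Ideal.Quotient.mk_surjective (g f i j)
    rw [RingHom.comp_apply, RingHom.mapMatrix_apply, Matrix.map_apply, ← hx] at h0
    rw [← hx]
    exact Ideal.mem_map_of_mem _ (Ideal.Quotient.eq_zero_iff_mem.mp h0)
  intro N
  induction N with
  | zero => simp [Ideal.map_top]
  | succ N ih =>
    intro f hf
    rw [Nat.mul_succ, pow_add] at hf
    induction hf using Submodule.mul_induction_on' with
    | mem_mul_mem a ha b hb =>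
      intro i j
      rw [map_mul, pow_succ, Ideal.map_mul]
      exact mul_entry_mem (ih a ha) (h1 b hb) i j
    | add a _ b _ ha hb =>
      intro i j
      rw [map_add, Matrix.add_apply]
      exact add_mem (ha i j) (hb i j)

variable [IsAdicComplete (maximalIdeal S) S] [hfin : ∀ N : ℕ, Finite (S ⧸ maximalIdeal S ^ N)]
  [Finite (ResidueField S)] [IsAdicComplete (maximalIdeal R) R]
  [hfinR : ∀ N : ℕ, Finite (R ⧸ maximalIdeal R ^ N)]
  (u : Ultrafilter ℕ) {J : ℕ → Ideal S}
  (hJ : ∀ N : ℕ, ∀ᶠ n in (u : Filter ℕ), J n ≤ maximalIdeal S ^ N)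

/-- Every scalar is in the image of the patched action. -/
theorem exists_limitHom_eq_diagonal (ρ : ∀ n, R →+* Matrix d d (S ⧸ J n))
    (h : ∀ᶠ n in (u : Filter ℕ), ∀ s : S,
      ∃ f : R, ρ n f = Matrix.diagonal fun _ => Ideal.Quotient.mk (J n) s) (s : S) :
    ∃ f : R, limitHom u hJ ρ f = Matrix.diagonal fun _ => s := by
  classical
  obtain ⟨e, he⟩ := exists_pow_map_residue_eq_zero (S := S) (d := d) (R := R)
  let F : ℕ → R := fun n =>
    if hn : ∃ f : R, ρ n f = Matrix.diagonal fun _ => Ideal.Quotient.mk (J n) s then hn.choose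
    else 0
  refine ⟨ulim (maximalIdeal R) u F, limitFun_eq u hJ ρ _ fun N => ?_⟩
  filter_upwards [h, hJ 1, isULim_ulim (maximalIdeal R) u F (e * N)] with n hn hn1 hclose hle
  have hF : ρ n (F n) = Matrix.diagonal fun _ => Ideal.Quotient.mk (J n) s := by
    simp only [F, dif_pos (hn s)]
    exact (hn s).choose_spec
  rw [pow_one] at hn1
  have hzero : (ρ n (F n - ulim (maximalIdeal R) u F)).map (Ideal.Quotient.factor hle) = 0 := by
    ext i j
    have h2 := Ideal.mem_map_of_mem (Ideal.Quotient.factor hle)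
      (entry_mem_map_pow hn1 (ρ n) he N _ hclose i j)
    rw [Ideal.map_map, Ideal.Quotient.factor_comp_mk, Ideal.map_quotient_self,
      Ideal.mem_bot] at h2
    simpa using h2
  rw [map_sub, Matrix.map_sub _ (map_sub _), sub_eq_zero, hF] at hzero
  show (ρ n (ulim (maximalIdeal R) u F)).map (Ideal.Quotient.factor hle) = _
  rw [← hzero, Matrix.diagonal_map (map_zero _), Matrix.diagonal_map (map_zero _)]
  simp [Ideal.Quotient.factor_mk]

end Fermat.Agent.LevelLowering.Patch
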