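import Fermat.Agent.LevelLowering.Patch.ULim
import Mathlib.RingTheory.LocalRing.MaximalIdeal.Basic
import Mathlib.LinearAlgebra.Matrix.ToLin

/-!
# Limits of finite level actions

Given for every `n` a ring homomorphism `ρ n : R →+* Mat_d(S ⧸ J n)` with `J n → 0`, the
entrywise ultrafilter limit of arbitrary lifts is a ring homomorphism `R →+* Mat_d(S)`.  This is
the patched module `S ^ d`.
-/

set_option autoImplicit false

noncomputable section

open IsLocalRing

namespace Fermat.Agent.LevelLowering.Patch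

variable {S : Type*} [CommRing S] [IsLocalRing S] [IsAdicComplete (maximalIdeal S) S]
  [hfin : ∀ N : ℕ, Finite (S ⧸ maximalIdeal S ^ N)]
  {d : Type*} [Fintype d] [DecidableEq d] {R : Type*} [CommRing R]
  (u : Ultrafilter ℕ) {J : ℕ → Ideal S}

/-- The representatives of the entries of `ρ n f`. -/
def liftEntry (ρ : ∀ n, R →+* Matrix d d (S ⧸ J n)) (f : R) (i j : d) (n : ℕ) : S :=
  (Ideal.Quotient.mk_surjective (ρ n f i j)).choose

omit [IsLocalRing S] [IsAdicComplete (maximalIdeal S) S] hfin in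
theorem mk_liftEntry (ρ : ∀ n, R →+* Matrix d d (S ⧸ J n)) (f : R) (i j : d) (n : ℕ) :
    Ideal.Quotient.mk (J n) (liftEntry ρ f i j n) = ρ n f i j :=
  (Ideal.Quotient.mk_surjective (ρ n f i j)).choose_spec

/-- The limit matrix of `ρ n f`. -/
def limitFun (ρ : ∀ n, R →+* Matrix d d (S ⧸ J n)) (f : R) : Matrix d d S :=
  Matrix.of fun i j => ulim (maximalIdeal S) u (liftEntry ρ f i j)

/-- `A` is the limit of the finite level matrices `B n`. -/
def IsMatLim (B : ∀ n, Matrix d d (S ⧸ J n)) (A : Matrix d d S) : Prop :=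
  ∀ N : ℕ, ∀ᶠ n in (u : Filter ℕ), ∀ h : J n ≤ maximalIdeal S ^ N,
    (B n).map (Ideal.Quotient.factor h) = A.map (Ideal.Quotient.mk (maximalIdeal S ^ N))

theorem isMatLim_limitFun (ρ : ∀ n, R →+* Matrix d d (S ⧸ J n)) (f : R) :
    IsMatLim u (fun n => ρ n f) (limitFun u ρ f) := by
  intro N
  have h : ∀ i j, ∀ᶠ n in (u : Filter ℕ),
      liftEntry ρ f i j n - ulim (maximalIdeal S) u (liftEntry ρ f i j) ∈ maximalIdeal S ^ N :=
    fun i j => isULim_ulim (maximalIdeal S) u _ N
  filter_upwards [Filter.eventually_all.mpr fun i => Filter.eventually_all.mpr (h i)]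
    with n hn hle
  ext i j
  simp only [Matrix.map_apply, limitFun, Matrix.of_apply]
  rw [← mk_liftEntry ρ f i j n, Ideal.Quotient.factor_mk]
  exact Ideal.Quotient.eq.mpr (hn i j)

omit hfin [Fintype d] [DecidableEq d] in
theorem matrix_eq_of_forall_map_eq {A B : Matrix d d S}
    (h : ∀ N : ℕ, A.map (Ideal.Quotient.mk (maximalIdeal S ^ N)) =
      B.map (Ideal.Quotient.mk (maximalIdeal S ^ N))) : A = B := by
  ext i j
  rw [IsHausdorff.eq_iff_smodEq (I := maximalIdeal S)]
  intro N
  rw [SModEq.sub_mem, smul_eq_mul, Ideal.mul_top]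
  exact Ideal.Quotient.eq.mp (congrFun (congrFun (h N) i) j)

variable (hJ : ∀ N : ℕ, ∀ᶠ n in (u : Filter ℕ), J n ≤ maximalIdeal S ^ N)

include hJ in
omit hfin [Fintype d] [DecidableEq d] in
/-- Matrix limits are unique. -/
theorem IsMatLim.unique {B : ∀ n, Matrix d d (S ⧸ J n)} {A A' : Matrix d d S}
    (h : IsMatLim u B A) (h' : IsMatLim u B A') : A = A' :=
  matrix_eq_of_forall_map_eq fun N => by
    obtain ⟨n, ⟨h1, h2⟩, h3⟩ := (((h N).and (h' N)).and (hJ N)).exists
    rw [← h1 h3, h2 h3]

omit [IsAdicComplete (maximalIdeal S) S] hfin [DecidableEq d] in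
/-- Matrix limits respect products. -/
theorem IsMatLim.mul {B B' : ∀ n, Matrix d d (S ⧸ J n)} {A A' : Matrix d d S}
    (h : IsMatLim u B A) (h' : IsMatLim u B' A') :
    IsMatLim u (fun n => B n * B' n) (A * A') := fun N => by
  filter_upwards [h N, h' N] with n h1 h2 hle
  rw [Matrix.map_mul, Matrix.map_mul, h1 hle, h2 hle]

omit [IsAdicComplete (maximalIdeal S) S] hfin [Fintype d] [DecidableEq d] in
/-- Matrix limits respect sums. -/
theorem IsMatLim.add {B B' : ∀ n, Matrix d d (S ⧸ J n)} {A A' : Matrix d d S}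
    (h : IsMatLim u B A) (h' : IsMatLim u B' A') :
    IsMatLim u (fun n => B n + B' n) (A + A') := fun N => by
  filter_upwards [h N, h' N] with n h1 h2 hle
  rw [Matrix.map_add _ (map_add _), Matrix.map_add _ (map_add _), h1 hle, h2 hle]

omit [IsAdicComplete (maximalIdeal S) S] hfin [Fintype d] in
theorem isMatLim_scalar (s : S) :
    IsMatLim u (fun n => Matrix.diagonal fun _ : d => Ideal.Quotient.mk (J n) s)
      (Matrix.diagonal fun _ => s) :=
  fun N => Filter.Eventually.of_forall fun n hle => by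
    rw [Matrix.diagonal_map (map_zero _), Matrix.diagonal_map (map_zero _)]
    simp [Ideal.Quotient.factor_mk]

include hJ in
/-- The limit matrix is characterised by `IsMatLim`. -/
theorem limitFun_eq (ρ : ∀ n, R →+* Matrix d d (S ⧸ J n)) (f : R) {A : Matrix d d S}
    (h : IsMatLim u (fun n => ρ n f) A) : limitFun u ρ f = A :=
  (isMatLim_limitFun u ρ f).unique u hJ h

/-- The patched action. -/
def limitHom (ρ : ∀ n, R →+* Matrix d d (S ⧸ J n)) : R →+* Matrix d d S where
  toFun := limitFun u ρ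
  map_one' := limitFun_eq u hJ ρ 1 (by
    simp only [map_one]
    simpa [Matrix.diagonal_one] using isMatLim_scalar (d := d) (J := J) u (1 : S))
  map_zero' := limitFun_eq u hJ ρ 0 (by
    simp only [map_zero]
    simpa [Matrix.diagonal_zero] using isMatLim_scalar (d := d) (J := J) u (0 : S))
  map_mul' f g := limitFun_eq u hJ ρ _ (by
    simp only [map_mul]
    exact (isMatLim_limitFun u ρ f).mul u (isMatLim_limitFun u ρ g))
  map_add' f g := limitFun_eq u hJ ρ _ (by
    simp only [map_add]
    exact (isMatLim_limitFun u ρ f).add u (isMatLim_limitFun u ρ g))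

/-- `limitHom` is the limit of the finite level actions. -/
theorem isMatLim_limitHom (ρ : ∀ n, R →+* Matrix d d (S ⧸ J n)) (f : R) :
    IsMatLim u (fun n => ρ n f) (limitHom u hJ ρ f) :=
  isMatLim_limitFun u ρ f

/-- Relations valid at almost every finite level hold in the limit. -/
theorem limitHom_eq_zero (ρ : ∀ n, R →+* Matrix d d (S ⧸ J n)) {f : R}
    (h : ∀ᶠ n in (u : Filter ℕ), ρ n f = 0) : limitHom u hJ ρ f = 0 := by
  refine matrix_eq_of_forall_map_eq fun N => ?_
  obtain ⟨n, ⟨h1, h2⟩, h3⟩ := (((isMatLim_limitHom u hJ ρ f N).and h).and (hJ N)).exists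
  have h4 : (ρ n f).map (Ideal.Quotient.factor h3) =
      (limitHom u hJ ρ f).map (Ideal.Quotient.mk (maximalIdeal S ^ N)) := h1 h3
  rw [← h4, h2, Matrix.map_zero _ (map_zero _), Matrix.map_zero _ (map_zero _)]

end Fermat.Agent.LevelLowering.Patch
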