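import Fermat.Agent.LevelLowering.Patch.Limit
import Mathlib.RingTheory.LocalRing.ResidueField.Basic
import Mathlib.RingTheory.Filtration
import Mathlib.RingTheory.Nakayama
import Mathlib.RingTheory.Ideal.Quotient.Noetherian
import Mathlib.Data.Set.Card

/-!
# Congruences and scalars in the patched action

* two families congruent modulo an ideal at finite levels have congruent limits;
* a complete local ring with finite quotients acting at finite levels is equicontinuous, so if
  every scalar is in the image at every level it is in the image in the limit.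
-/

set_option autoImplicit false

noncomputable section

open IsLocalRing

namespace Fermat.Agent.LevelLowering.Patch

variable {S : Type*} [CommRing S] [IsLocalRing S] [IsAdicComplete (maximalIdeal S) S]
  [hfin : ∀ N : ℕ, Finite (S ⧸ maximalIdeal S ^ N)]
  {d : Type*} [Fintype d] [DecidableEq d] {R : Type*} [CommRing R]
  (u : Ultrafilter ℕ) {J : ℕ → Ideal S}
  (hJ : ∀ N : ℕ, ∀ᶠ n in (u : Filter ℕ), J n ≤ maximalIdeal S ^ N)

include hJ in
/-- Congruences modulo an ideal pass to the limit. -/
theorem limitHom_sub_mem [IsNoetherianRing S] (ρ ρ' : ∀ n, R →+* Matrix d d (S ⧸ J n))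
    (a : Ideal S) (ha : a ≠ ⊤)
    (h : ∀ᶠ n in (u : Filter ℕ), ∀ (f : R) (i j : d),
      ρ n f i j - ρ' n f i j ∈ a.map (Ideal.Quotient.mk (J n)))
    (f : R) (i j : d) : limitHom u hJ ρ f i j - limitHom u hJ ρ' f i j ∈ a := by
  set z := limitHom u hJ ρ f i j - limitHom u hJ ρ' f i j with hz
  have : Nontrivial (S ⧸ a) := Ideal.Quotient.nontrivial_iff.mpr ha
  have : IsLocalRing (S ⧸ a) :=
    IsLocalRing.of_surjective' (Ideal.Quotient.mk a) Ideal.Quotient.mk_surjective
  have hmax : (maximalIdeal S).map (Ideal.Quotient.mk a) ≠ ⊤ := by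
    intro htop
    have h1 := congrArg (Ideal.comap (Ideal.Quotient.mk a)) htop
    rw [Ideal.comap_map_of_surjective _ Ideal.Quotient.mk_surjective, Ideal.comap_top,
      ← RingHom.ker_eq_comap_bot, Ideal.mk_ker, sup_eq_left.mpr (IsLocalRing.le_maximalIdeal ha)]
      at h1
    exact (maximalIdeal.isMaximal S).ne_top h1
  have key : Ideal.Quotient.mk a z ∈ ⨅ N : ℕ, (maximalIdeal S).map (Ideal.Quotient.mk a) ^ N := by
    refine Submodule.mem_iInf _ |>.mpr fun N => ?_
    obtain ⟨n, ⟨⟨h1, h2⟩, h3⟩, h4⟩ := ((((isMatLim_limitHom u hJ ρ f N).and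
      (isMatLim_limitHom u hJ ρ' f N)).and h).and (hJ N)).exists
    have e1 := congrFun (congrFun (h1 h4) i) j
    have e2 := congrFun (congrFun (h2 h4) i) j
    simp only [Matrix.map_apply] at e1 e2
    have hzN : Ideal.Quotient.mk (maximalIdeal S ^ N) z ∈
        a.map (Ideal.Quotient.mk (maximalIdeal S ^ N)) := by
      have h5 := Ideal.mem_map_of_mem (Ideal.Quotient.factor h4) (h3 f i j)
      rw [Ideal.map_map, Ideal.Quotient.factor_comp_mk, map_sub, e1, e2, ← map_sub] at h5
      exact h5
    obtain ⟨y, hy, hyz⟩ :=
      (Ideal.mem_map_iff_of_surjective _ Ideal.Quotient.mk_surjective).mp hzN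
    rw [← Ideal.map_pow]
    have h6 : z - y ∈ maximalIdeal S ^ N := Ideal.Quotient.eq.mp hyz.symm
    have h7 : Ideal.Quotient.mk a z = Ideal.Quotient.mk a (z - y) := by
      rw [map_sub (Ideal.Quotient.mk a) z y, Ideal.Quotient.eq_zero_iff_mem.mpr hy, sub_zero]
    rw [h7]
    exact Ideal.mem_map_of_mem _ h6
  rw [Ideal.iInf_pow_eq_bot_of_isLocalRing _ hmax, Ideal.mem_bot] at key
  exact Ideal.Quotient.eq_zero_iff_mem.mp key

variable [IsLocalRing R]

omit [IsAdicComplete (maximalIdeal S) S] hfin in
/-- A power of the maximal ideal of `R` acts by matrices congruent to zero, with an exponent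
depending only on the residual module. -/
theorem exists_pow_map_residue_eq_zero [Finite (ResidueField S)] :
    ∃ e : ℕ, ∀ g : R →+* Matrix d d (ResidueField S), ∀ f ∈ maximalIdeal R ^ e, g f = 0 := by
  classical
  refine ⟨Nat.card (d → ResidueField S), fun g => ?_⟩
  let V := d → ResidueField S
  let : Module R V := Module.compHom V
    ((Matrix.toLinAlgEquiv' : Matrix d d (ResidueField S) ≃ₐ[ResidueField S] _).toRingHom.comp g :
      R →+* Module.End (ResidueField S) V)
  have : Module.Finite R V := Module.Finite.of_finite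
  intro f hf
  have hdesc : ∀ i : ℕ, Nat.card ↥((maximalIdeal R ^ i) • ⊤ : Submodule R V) + i ≤
      Nat.card V + 0 ∨ ((maximalIdeal R ^ i) • ⊤ : Submodule R V) = ⊥ := by
    intro i
    induction i with
    | zero =>
      left
      simp
    | succ i ih =>
      by_cases hbot : ((maximalIdeal R ^ i) • ⊤ : Submodule R V) = ⊥
      · right
        rw [pow_succ', Submodule.mul_smul, hbot, Submodule.smul_bot]
      · left
        rcases ih with ih | ih
        · have hlt : ((maximalIdeal R ^ (i + 1)) • ⊤ : Submodule R V) <
              (maximalIdeal R ^ i) • ⊤ := by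
            refine lt_of_le_of_ne (Submodule.smul_mono_left (Ideal.pow_le_pow_right i.le_succ)) ?_
            intro he
            refine hbot (Submodule.eq_bot_of_le_smul_of_le_jacobson_bot (maximalIdeal R) _
              (Module.Finite.iff_fg.mp inferInstance) ?_
              (maximalIdeal_le_jacobson _))
            rw [← Submodule.mul_smul, ← pow_succ', he]
          have hc : Nat.card ↥((maximalIdeal R ^ (i + 1)) • ⊤ : Submodule R V) <
              Nat.card ↥((maximalIdeal R ^ i) • ⊤ : Submodule R V) := by
            exact Set.ncard_lt_ncard (SetLike.coe_ssubset_coe.mpr hlt) (Set.toFinite _)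
          omega
        · exact absurd ih hbot
  rcases hdesc (Nat.card V) with h | h
  · exfalso
    have : 0 < Nat.card ↥((maximalIdeal R ^ Nat.card V) • ⊤ : Submodule R V) := Nat.card_pos
    omega
  · apply Matrix.toLinAlgEquiv'.injective
    rw [map_zero]
    refine LinearMap.ext fun v => ?_
    have : f • v ∈ ((maximalIdeal R ^ Nat.card V) • ⊤ : Submodule R V) :=
      Submodule.smul_mem_smul hf trivial
    rw [h, Submodule.mem_bot] at this
    exact this

end Fermat.Agent.LevelLowering.Patch
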