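import Mathlib.RingTheory.AdicCompletion.Basic
import Mathlib.Order.Filter.Ultrafilter.Basic
import Mathlib.Tactic.Ring

/-!
# Ultrafilter limits in complete rings with finite quotients

`ulim` sends a sequence to its limit along an ultrafilter; it is a ring homomorphism
`(ℕ → S) →+* S`.
-/

set_option autoImplicit false

noncomputable section

namespace Fermat.Agent.LevelLowering.Patch

variable {S : Type*} [CommRing S] (I : Ideal S) [IsAdicComplete I S]
  [hfin : ∀ N : ℕ, Finite (S ⧸ I ^ N)] (u : Ultrafilter ℕ)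

/-- `a` is the limit of `x` along `u` for the `I`-adic topology. -/
def IsULim (x : ℕ → S) (a : S) : Prop :=
  ∀ N : ℕ, ∀ᶠ n in (u : Filter ℕ), x n - a ∈ I ^ N

/-- Every sequence has a limit along the ultrafilter. -/
theorem exists_isULim (x : ℕ → S) : ∃ a, IsULim I u x a := by
  have h : ∀ N : ℕ, ∃ a : S, ∀ᶠ n in (u : Filter ℕ), x n - a ∈ I ^ N := fun N => by
    obtain ⟨c, hc⟩ := (u.map fun n => Ideal.Quotient.mk (I ^ N) (x n)).eq_pure_of_finite
    obtain ⟨a, rfl⟩ := Ideal.Quotient.mk_surjective c
    refine ⟨a, ?_⟩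
    have hmem : {y | y = Ideal.Quotient.mk (I ^ N) a} ∈
        u.map fun n => Ideal.Quotient.mk (I ^ N) (x n) := by
      rw [hc]
      exact Ultrafilter.mem_pure.mpr rfl
    filter_upwards [Ultrafilter.mem_map.mp hmem] with n hn
    exact Ideal.Quotient.eq.mp hn
  choose a ha using h
  have hco : ∀ {m n : ℕ}, m ≤ n → a m ≡ a n [SMOD (I ^ m • ⊤ : Submodule S S)] := by
    intro m n hmn
    rw [SModEq.sub_mem, smul_eq_mul, Ideal.mul_top]
    obtain ⟨t, h1, h2⟩ := ((ha m).and (ha n)).exists
    have := sub_mem (Ideal.pow_le_pow_right hmn h2) h1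
    rwa [sub_sub_sub_cancel_left] at this
  obtain ⟨L, hL⟩ := IsPrecomplete.prec (inferInstance : IsPrecomplete I S) hco
  refine ⟨L, fun N => ?_⟩
  filter_upwards [ha N] with n hn
  have hN := hL N
  rw [SModEq.sub_mem, smul_eq_mul, Ideal.mul_top] at hN
  have := add_mem hn hN
  rwa [sub_add_sub_cancel] at this

omit hfin in
/-- Limits are unique. -/
theorem IsULim.unique {x : ℕ → S} {a b : S} (ha : IsULim I u x a) (hb : IsULim I u x b) :
    a = b := by
  rw [IsHausdorff.eq_iff_smodEq (I := I)]
  intro N
  rw [SModEq.sub_mem, smul_eq_mul, Ideal.mul_top]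
  obtain ⟨t, h1, h2⟩ := ((ha N).and (hb N)).exists
  have := sub_mem h2 h1
  rwa [sub_sub_sub_cancel_left] at this

/-- The limit of a sequence along the ultrafilter. -/
def ulimFun (x : ℕ → S) : S :=
  (exists_isULim I u x).choose

theorem isULim_ulimFun (x : ℕ → S) : IsULim I u x (ulimFun I u x) :=
  (exists_isULim I u x).choose_spec

omit hfin [IsAdicComplete I S] in
/-- Limits respect sums. -/
theorem IsULim.add {x y : ℕ → S} {a b : S} (ha : IsULim I u x a) (hb : IsULim I u y b) :
    IsULim I u (x + y) (a + b) := fun N => by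
  filter_upwards [ha N, hb N] with n h1 h2
  have := add_mem h1 h2
  rwa [sub_add_sub_comm] at this

omit hfin [IsAdicComplete I S] in
/-- Limits respect products. -/
theorem IsULim.mul {x y : ℕ → S} {a b : S} (ha : IsULim I u x a) (hb : IsULim I u y b) :
    IsULim I u (x * y) (a * b) := fun N => by
  filter_upwards [ha N, hb N] with n h1 h2
  rw [Pi.mul_apply, show x n * y n - a * b = x n * (y n - b) + (x n - a) * b by ring]
  exact add_mem (Ideal.mul_mem_left _ _ h2) (Ideal.mul_mem_right _ _ h1)

omit hfin [IsAdicComplete I S] in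
theorem isULim_const (a : S) : IsULim I u (fun _ => a) a := fun N =>
  Filter.Eventually.of_forall fun _ => by simp

/-- Taking limits is a ring homomorphism. -/
def ulim : (ℕ → S) →+* S where
  toFun := ulimFun I u
  map_one' := (isULim_ulimFun I u 1).unique I u (isULim_const I u 1)
  map_zero' := (isULim_ulimFun I u 0).unique I u (isULim_const I u 0)
  map_add' x y := (isULim_ulimFun I u _).unique I u
    ((isULim_ulimFun I u x).add I u (isULim_ulimFun I u y))
  map_mul' x y := (isULim_ulimFun I u _).unique I u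
    ((isULim_ulimFun I u x).mul I u (isULim_ulimFun I u y))

/-- `ulim` is the limit of the sequence. -/
theorem isULim_ulim (x : ℕ → S) : IsULim I u x (ulim I u x) :=
  isULim_ulimFun I u x

end Fermat.Agent.LevelLowering.Patch
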